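/-
P-CFT / [HASSE], row 966 HS-MU (helper24): the bridge from the `ℚ̄ˣ`-form of the Hasse principle
(`Fermat.Agent.H97.Hasse.HasseStatement`) to the `μ_p`-form consumed by `[GO2']`
(`Fermat.Agent.H54.Cft.HasseMuStatement`).

`hasseMu_of : HasseStatement → DecClosedStatement → HasseMuStatement`.

Proof: `c := ζ ^ x` is a Brauer cocycle of `G_L` with `c ^ p = 1`; local triviality of `x` at `A`
(on `D_A ∩ G_L`) gives local triviality of `c` on `G_{L ⊔ decField A} = G_L ∩ D_A` (DecClosed);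
Hasse gives `c = d b` with `b` level, and `muDescent` (helper57) returns a level `ZMod p`-valued
cochain bounding `x`.
-/
import Fermat.Agent.H97.Hasse.Interfaces
import Fermat.Agent.H54.Cft.GO2Interfaces
import Fermat.Agent.H57.CFT.H90Lvl
import Fermat.Agent.H21.Cft.BridgeLevels
import Fermat.Agent.H98.Cft.CupNorm
import Fermat.Agent.H78.CFT.LocalH2

set_option autoImplicit false

namespace Fermat.Agent.H24.Hasse

open Fermat.Agent.H13.Cft Fermat.Agent.H78.CFT Fermat.Agent.H97.Hasse Fermat.Agent.H54.Cft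

/-- Elements of `G_{L ⊔ decField A}` lie in the decomposition group of `A`. -/
theorem mem_dec_of_mem_locFieldAt (hD : DecClosedStatement) {q : ℕ} (hq : q.Prime)
    {A : ValuationSubring Qb} (hA : A.LiesOverPrime q) (L : IntermediateField ℚ Qb)
    (g : (locFieldAt L A).fixingSubgroup) :
    (g : Qb ≃ₐ[ℚ] Qb) ∈ A.decompositionSubgroup ℚ := by
  rw [← hD q hq A hA]
  exact IntermediateField.fixingSubgroup_le (le_sup_right : decField A ≤ locFieldAt L A) g.2

/-- **[HS-MU]** the `μ_p`-form of the Hasse principle from the `ℚ̄ˣ`-form. -/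
theorem hasseMu_of (hH : HasseStatement) (hD : DecClosedStatement) : HasseMuStatement := by
  intro p _ hp2 L _ hμ x hcoc hlvl hloc
  have hp : p.Prime := Fact.out
  have : NeZero p := ⟨hp.ne_zero⟩
  obtain ⟨ζ₀, hζ₀⟩ : ∃ ζ : Qb, IsPrimitiveRoot ζ p :=
    HasEnoughRootsOfUnity.exists_primitiveRoot Qb p
  obtain ⟨ζ, rfl⟩ : ∃ ζ : Qbˣ, (ζ : Qb) = ζ₀ :=
    ⟨Units.mk0 ζ₀ (hζ₀.ne_zero hp.ne_zero), rfl⟩
  have hζL : (ζ : Qb) ∈ L := hμ _ hζ₀.pow_eq_one
  have hζp : ζ ^ p = 1 := by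
    apply Units.ext
    rw [Units.val_pow_eq_pow_val, hζ₀.pow_eq_one, Units.val_one]
  -- (1) `c = ζ ^ x` is a Brauer cocycle
  have hxlvl : IsLvl₂ (lvlE L) x := by
    obtain ⟨F, hF, hx⟩ := hlvl
    have := hF
    obtain ⟨N, hN, hNF⟩ :=
      Fermat.Agent.H21.Cft.exists_pullbackLevel_le L.fixingSubgroup.subtype F
    exact ⟨N, hN, fun g h n hn m hm => hx g h n m (hNF hn) (hNF hm)⟩
  have hxtriv : IsTrivCocycle₂ x := by
    intro g h j
    have := hcoc g h j
    linear_combination -this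
  have hc : IsBrCocycle L (zetaPow ζ x) :=
    ⟨isLvlFun₂_zetaPow L hxlvl, fun g h j => isCocycle_zetaPow L hζ₀ hζL hxtriv g h j⟩
  -- (2) `c ^ p = 1`
  have hcp : ∃ n : ℕ, IsLvlMulCoboundary₂E L (fun y => zetaPow ζ x y ^ p ^ n) := by
    refine ⟨1, fun _ => 1, ?_, fun gh => ?_⟩
    · obtain ⟨N, hN⟩ := (lvlE L).nonempty
      exact ⟨N, hN, fun _ _ _ => rfl⟩
    · simp only [mulD₁E, map_one, mul_one, div_one, zetaPow, pow_one]
      rw [← pow_mul, mul_comm, pow_mul, hζp, one_pow]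
  -- (3) local triviality
  have hloc' : IsLocTriv L (zetaPow ζ x) := by
    intro q hq A hA
    obtain ⟨y, ⟨F, hF, hyF⟩, hxy⟩ := hloc ⟨q, hq⟩ A hA
    have := hF
    have hζE : (ζ : Qb) ∈ locFieldAt L A := le_locFieldAt L A hζL
    refine ⟨zetaPow ζ (fun g => y (incl (le_locFieldAt L A) g)), ?_, fun gh => ?_⟩
    · obtain ⟨N, hN, hNF⟩ :=
        Fermat.Agent.H21.Cft.exists_pullbackLevel_le (locFieldAt L A).fixingSubgroup.subtype F
      refine ⟨N, hN, fun g n hn => ?_⟩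
      show ζ ^ (y (incl (le_locFieldAt L A) (g * n))).val
        = ζ ^ (y (incl (le_locFieldAt L A) g)).val
      rw [map_mul]
      rw [hyF (incl (le_locFieldAt L A) g) (incl (le_locFieldAt L A) n)
        (mem_dec_of_mem_locFieldAt hD hq hA L g) (mem_dec_of_mem_locFieldAt hD hq hA L n)
        (hNF hn)]
    · rw [Fermat.Agent.H98.Cft.CupNorm.mulD₁E_zetaPow (locFieldAt L A) ζ hζp hζE
        (fun g => y (incl (le_locFieldAt L A) g))
        (resCochain₂ (le_locFieldAt L A) x) (fun g h => ?_) gh]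
      · rfl
      · rw [resCochain₂_apply, map_mul]
        exact (hxy _ _ (mem_dec_of_mem_locFieldAt hD hq hA L g)
          (mem_dec_of_mem_locFieldAt hD hq hA L h)).symm
  -- (4) Hasse, (5) descent to `μ_p`
  have hcob : IsLvlMulCoboundary₂E L (zetaPow ζ x) :=
    hH p hp2 L inferInstance (zetaPow ζ x) hc hcp hloc'
  obtain ⟨y, ⟨N, hN, hyN⟩, hy⟩ := Fermat.Agent.H57.CFT.muDescent p L ζ hζ₀ hζL x hcob
  obtain ⟨-, -, F, hF, hFN⟩ := hN
  exact ⟨y, ⟨F, hF, fun g n hn => hyN g n (hFN hn)⟩, fun g h => (hy g h).symm⟩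

end Fermat.Agent.H24.Hasse
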